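/-
S32lib / FM (helper8): **a dense Galois-stable set of points is everything.**
`Q` a finite free `W`-algebra, `K = Frac W`, `Ω / K` Galois.  A Galois-stable set `S` of points
`Q → Ω` which is dense (jointly injective on `Q`) contains every point: `rank Q ≤ #S` by Galois
descent (`sep_of_dense`) and `#(points) ≤ rank Q` by Dedekind independence.
-/
import Mathlib
import Fermat.Agent.S56lib.Hopf.GalPts

set_option autoImplicit false
set_option linter.unusedSectionVars false
set_option linter.style.haveILetI false

noncomputable section

namespace Fermat.Agent.S32lib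

open Module Fermat.Agent.S56lib.Hopf

section count

variable {W K Ω : Type*} [CommRing W] [IsDomain W] [Field K] [Field Ω] [Algebra W K]
  [Algebra K Ω] [Algebra W Ω] [IsScalarTower W K Ω] [IsFractionRing W K] [IsGalois K Ω]
  {Q : Type*} [CommRing Q] [Algebra W Q] {A : Type*} [Fintype A] (q : Basis A W Q)

include q in
/-- a dense Galois-stable set of points of a finite free algebra contains all points. -/
theorem mem_of_dense_of_stable (S : Set (Q →ₐ[W] Ω))
    (hS : ∀ σ : Ω ≃ₐ[K] Ω, ∀ x ∈ S, galPt σ x ∈ S)
    (hd : ∀ h : Q, (∀ x ∈ S, x h = 0) → h = 0) (x₀ : Q →ₐ[W] Ω) : x₀ ∈ S := by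
  classical
  have : Finite (Q →ₐ[W] Ω) := finite_points q
  have : Fintype (Q →ₐ[W] Ω) := Fintype.ofFinite _
  let E : (A → Ω) →ₗ[Ω] (S → Ω) :=
    { toFun := fun c x => evC q c x
      map_add' := fun c c' => by
        funext x
        exact evC_add q c c' x
      map_smul' := fun r c => by
        funext x
        exact evC_smul q r c x }
  have hinj : Function.Injective E := by
    rw [← LinearMap.ker_eq_bot, LinearMap.ker_eq_bot']
    intro c hc
    apply sep_of_dense (K := K) q S hS hd c
    intro x hx
    exact congrFun hc ⟨x, hx⟩
  have h1 : Fintype.card A ≤ Fintype.card S := by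
    have := LinearMap.finrank_le_finrank_of_injective hinj
    rwa [Module.finrank_fintype_fun_eq_card, Module.finrank_fintype_fun_eq_card] at this
  have h2 : Fintype.card (Q →ₐ[W] Ω) ≤ Fintype.card A := by
    have := (linearIndependent_rows (Ω := Ω) q).fintype_card_le_finrank
    rwa [Module.finrank_fintype_fun_eq_card] at this
  by_contra hx₀
  have h3 : Fintype.card S < Fintype.card (Q →ₐ[W] Ω) := Fintype.card_subtype_lt hx₀
  omega

end count

end Fermat.Agent.S32lib
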