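/-
S32lib / FM (helper8): **finite flat models** of finite abelian groups with an action of `G_ℚ`.
`HasFlatModel p M act` is verbatim the existential body of the frozen statement S19 and of the
Prelude's `GaloisRepAdic.IsFlatAt`: a finite flat cocommutative commutative Hopf algebra `H` over
`ℤ_(p) = GaloisRep.ratLocalizedAt p` together with an additive, Galois-equivariant bijection between
its `ℚ̄`-points (with the convolution product) and `M`.
This file: the definition, the set-up instances for `R = ℤ_(p) ⊂ K = ℚ ⊂ Ω = ℚ̄`, and the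
elementary consequences (the action is determined by the model, additive, a group action).
-/
import Mathlib
import Fermat.Prelude.Def_GaloisRep_Flat
import Fermat.Agent.S28lib.AdjoinPoly
import Fermat.Agent.S56lib.Hopf.GalPts

set_option autoImplicit false
set_option linter.unusedSectionVars false
set_option linter.style.haveILetI false

noncomputable section

namespace Fermat.Agent.S32lib

open WithConv Fermat.Agent.S56lib.Hopf

/-- `ℚ̄` -/
abbrev Qb : Type := AlgebraicClosure ℚ
/-- `G_ℚ` -/
abbrev GQ : Type := AlgebraicClosure ℚ ≃ₐ[ℚ] AlgebraicClosure ℚ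
/-- `ℤ_(p)` -/
abbrev Zp (p : ℕ) : Type := ↥(GaloisRep.ratLocalizedAt p)

/-- **Finite flat model** over `ℤ_(p)` of an abelian group `M` with an action of `G_ℚ`. -/
def HasFlatModel (p : ℕ) (M : Type) [AddCommGroup M] (act : GQ → M → M) : Prop :=
  ∃ (H : Type) (_ : CommRing H) (_ : HopfAlgebra (GaloisRep.ratLocalizedAt p) H),
    Module.Finite (GaloisRep.ratLocalizedAt p) H ∧
    Module.Flat (GaloisRep.ratLocalizedAt p) H ∧
    Coalgebra.IsCocomm (GaloisRep.ratLocalizedAt p) H ∧
    ∃ e : WithConv (H →ₐ[GaloisRep.ratLocalizedAt p] AlgebraicClosure ℚ) ≃ M,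
      (∀ f g : WithConv (H →ₐ[GaloisRep.ratLocalizedAt p] AlgebraicClosure ℚ),
        e (f * g) = e f + e g) ∧
      ∀ (σ : AlgebraicClosure ℚ ≃ₐ[ℚ] AlgebraicClosure ℚ)
        (f g : WithConv (H →ₐ[GaloisRep.ratLocalizedAt p] AlgebraicClosure ℚ)),
        (∀ h : H, g h = σ (f h)) → e g = act σ (e f)

section setup

variable (p : ℕ)

instance isScalarTower_Zp_Q_Qb : IsScalarTower (Zp p) ℚ Qb :=
  IsScalarTower.of_algebraMap_eq fun _ => rfl

instance isFractionRing_Zp [Fact p.Prime] : IsFractionRing (Zp p) ℚ :=
  IsFractionRing.isFractionRing_of_isDomain_of_isLocalization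
    (Ideal.span {((p : ℕ) : ℤ)}).primeCompl (Zp p) ℚ

instance isGalois_Q_Qb : IsGalois ℚ Qb := by
  have h : (AlgebraicClosure.instAlgebra ℚ : Algebra ℚ Qb) = DivisionRing.toRatAlgebra :=
    Subsingleton.elim _ _
  rw [← h]
  exact IsAlgClosure.isGalois ℚ _

end setup

section basic

variable {p : ℕ} {H : Type} [CommRing H] [HopfAlgebra (GaloisRep.ratLocalizedAt p) H]

/-- the Galois condition in the definition of a flat model says `g = galConv σ f`. -/
theorem eq_galConv_iff (σ : GQ) (f g : WithConv (H →ₐ[GaloisRep.ratLocalizedAt p] Qb)) :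
    (∀ h : H, g h = σ (f h)) ↔ g = galConv (K := ℚ) σ f := by
  constructor
  · intro h
    apply ofConv_injective
    ext a
    exact h a
  · rintro rfl a
    rfl

end basic

end Fermat.Agent.S32lib
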