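/-
S32lib / FM (helper8): **finite flat models pass to Galois-stable subgroups** (schematic closure).
If `M` has a finite flat model `H` and `ι : M' → M` is an injective additive equivariant map, then
`H ⧸ vanIdeal F` (`F` = the points lying in `ι M'`) is a finite flat model of `M'`; moreover its
points are dense (jointly injective).  Uses `S56lib/Hopf/Closure` (the vanishing ideal of a
Galois-stable group of points is a Hopf ideal) and the counting lemma `mem_of_dense_of_stable`.
-/
import Mathlib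
import Fermat.Agent.S32lib.FM.Defs
import Fermat.Agent.S32lib.FM.Count
import Fermat.Agent.S56lib.Hopf.CESplit

set_option autoImplicit false
set_option linter.unusedSectionVars false
set_option linter.style.haveILetI false

noncomputable section

namespace Fermat.Agent.S32lib

open WithConv Fermat.Agent.S56lib.Hopf

/-- a finite flat model whose points are dense. -/
def HasDenseFlatModel (p : ℕ) (M : Type) [AddCommGroup M] (act : GQ → M → M) : Prop :=
  ∃ (H : Type) (_ : CommRing H) (_ : HopfAlgebra (GaloisRep.ratLocalizedAt p) H),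
    Module.Finite (GaloisRep.ratLocalizedAt p) H ∧
    Module.Flat (GaloisRep.ratLocalizedAt p) H ∧
    Coalgebra.IsCocomm (GaloisRep.ratLocalizedAt p) H ∧
    (∀ h : H, (∀ x : H →ₐ[GaloisRep.ratLocalizedAt p] AlgebraicClosure ℚ, x h = 0) → h = 0) ∧
    ∃ e : WithConv (H →ₐ[GaloisRep.ratLocalizedAt p] AlgebraicClosure ℚ) ≃ M,
      (∀ f g : WithConv (H →ₐ[GaloisRep.ratLocalizedAt p] AlgebraicClosure ℚ),
        e (f * g) = e f + e g) ∧
      ∀ (σ : AlgebraicClosure ℚ ≃ₐ[ℚ] AlgebraicClosure ℚ)
        (f g : WithConv (H →ₐ[GaloisRep.ratLocalizedAt p] AlgebraicClosure ℚ)),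
        (∀ h : H, g h = σ (f h)) → e g = act σ (e f)

theorem HasDenseFlatModel.hasFlatModel {p : ℕ} {M : Type} [AddCommGroup M] {act : GQ → M → M}
    (h : HasDenseFlatModel p M act) : HasFlatModel p M act := by
  obtain ⟨H, i1, i2, h1, h2, h3, -, e, he⟩ := h
  exact ⟨H, i1, i2, h1, h2, h3, e, he⟩

section model

variable {p : ℕ} {H : Type} [CommRing H] [HopfAlgebra (GaloisRep.ratLocalizedAt p) H]
  {M : Type} [AddCommGroup M]
  (e : WithConv (H →ₐ[GaloisRep.ratLocalizedAt p] AlgebraicClosure ℚ) ≃ M)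
  (hadd : ∀ f g : WithConv (H →ₐ[GaloisRep.ratLocalizedAt p] AlgebraicClosure ℚ),
    e (f * g) = e f + e g)

include hadd in
theorem model_map_one : e 1 = 0 := by
  have h := hadd 1 1
  rw [one_mul] at h
  exact left_eq_add.mp h

include hadd in
theorem model_map_pow (x : WithConv (H →ₐ[GaloisRep.ratLocalizedAt p] AlgebraicClosure ℚ))
    (n : ℕ) : e (x ^ n) = n • e x := by
  induction n with
  | zero => rw [pow_zero, zero_smul, model_map_one e hadd]
  | succ n ih => rw [pow_succ, hadd, ih, succ_nsmul]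

include hadd in
theorem model_finite [Fact p.Prime] [Module.Finite (GaloisRep.ratLocalizedAt p) H]
    [Module.Flat (GaloisRep.ratLocalizedAt p) H] : Finite M := by
  haveI : Module.Free (GaloisRep.ratLocalizedAt p) H := Module.free_of_flat_of_isLocalRing
  haveI : Finite (H →ₐ[GaloisRep.ratLocalizedAt p] AlgebraicClosure ℚ) :=
    finite_points (Module.Free.chooseBasis (GaloisRep.ratLocalizedAt p) H)
  haveI : Finite (WithConv (H →ₐ[GaloisRep.ratLocalizedAt p] AlgebraicClosure ℚ)) :=
    Finite.of_equiv _ (WithConv.equiv _).symm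
  exact Finite.of_equiv _ e

include hadd in
theorem model_pow_card (x : WithConv (H →ₐ[GaloisRep.ratLocalizedAt p] AlgebraicClosure ℚ)) :
    x ^ Nat.card M = 1 := by
  apply e.injective
  rw [model_map_pow e hadd, model_map_one e hadd]
  exact card_nsmul_eq_zero'

end model

/-- **Finite flat models pass to subobjects** (with dense points). -/
theorem HasFlatModel.dense_of_injective {p : ℕ} [Fact p.Prime] {M M' : Type} [AddCommGroup M]
    [AddCommGroup M'] {act : GQ → M → M} {act' : GQ → M' → M'} (h : HasFlatModel p M act)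
    (ι : M' →+ M) (hι : Function.Injective ι) (heq : ∀ σ x, ι (act' σ x) = act σ (ι x)) :
    HasDenseFlatModel p M' act' := by
  classical
  obtain ⟨H, _, _, hfin, hflat, hcocomm, e, hadd, hgal⟩ := h
  haveI := hfin
  haveI := hflat
  haveI := hcocomm
  haveI : Module.Free (GaloisRep.ratLocalizedAt p) H := Module.free_of_flat_of_isLocalRing
  have he1 : e 1 = 0 := model_map_one e hadd
  -- the submonoid of points lying in `M'`
  let F : Submonoid (WithConv (H →ₐ[GaloisRep.ratLocalizedAt p] AlgebraicClosure ℚ)) :=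
    { carrier := {x | e x ∈ Set.range ι}
      one_mem' := ⟨0, by rw [map_zero, he1]⟩
      mul_mem' := by
        rintro x y ⟨a, ha⟩ ⟨b, hb⟩
        exact ⟨a + b, by rw [map_add, ha, hb, hadd]⟩ }
  have hmemF : ∀ x, x ∈ F ↔ e x ∈ Set.range ι := fun _ => Iff.rfl
  have hgal' : ∀ (σ : GQ) (x : WithConv (H →ₐ[GaloisRep.ratLocalizedAt p] AlgebraicClosure ℚ)),
      e (galConv (K := ℚ) σ x) = act σ (e x) := fun σ x => hgal σ x _ (fun _ => rfl)
  have hst : ∀ σ : AlgebraicClosure ℚ ≃ₐ[ℚ] AlgebraicClosure ℚ, ∀ x ∈ F,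
      galConv (K := ℚ) σ x ∈ F := by
    rintro σ x ⟨a, ha⟩
    refine ⟨act' σ a, ?_⟩
    rw [heq, ha, hgal']
  haveI hMfin : Finite M := model_finite e hadd
  have hkill : ∀ x ∈ F, x ^ Nat.card M = 1 := fun x _ => model_pow_card e hadd x
  have hpos : 0 < Nat.card M := Nat.card_pos
  haveI := isHopfIdeal_vanIdeal (K := ℚ) hpos F hst hkill
  have hinjR := algebraMap_injective_of_fraction (GaloisRep.ratLocalizedAt p) ℚ (AlgebraicClosure ℚ)
  haveI : Module.Free (GaloisRep.ratLocalizedAt p) (H ⧸ vanIdeal F) := free_quot_vanIdeal hinjR F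
  haveI : Coalgebra.IsCocomm (GaloisRep.ratLocalizedAt p) (H ⧸ vanIdeal F) :=
    isCocomm_quot (vanIdeal F)
  let ι' : WithConv ((H ⧸ vanIdeal F) →ₐ[GaloisRep.ratLocalizedAt p] AlgebraicClosure ℚ) →*
      WithConv (H →ₐ[GaloisRep.ratLocalizedAt p] AlgebraicClosure ℚ) :=
    pullHom (Bialgebra.Quotient.mkBialgHom (vanIdeal F))
  have hι'_apply : ∀ (y : WithConv ((H ⧸ vanIdeal F) →ₐ[GaloisRep.ratLocalizedAt p]
      AlgebraicClosure ℚ)) (h : H), (ι' y).ofConv h = y.ofConv (Ideal.Quotient.mk _ h) :=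
    fun _ _ => rfl
  have hι'inj : Function.Injective ι' := by
    intro x y hxy
    apply ofConv_injective
    apply Ideal.Quotient.algHom_ext
    apply AlgHom.ext
    intro h
    exact congrArg (fun t => t.ofConv h) hxy
  have hι'gal : ∀ (σ : AlgebraicClosure ℚ ≃ₐ[ℚ] AlgebraicClosure ℚ)
      (y : WithConv ((H ⧸ vanIdeal F) →ₐ[GaloisRep.ratLocalizedAt p] AlgebraicClosure ℚ)),
      ι' (galConv (K := ℚ) σ y) = galConv (K := ℚ) σ (ι' y) := fun _ _ => rfl
  have hlift : ∀ x (hx : x ∈ F), ι' (toConv (quotPt F x hx)) = x := by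
    intro x hx
    apply ofConv_injective
    ext h
    rfl
  -- density of the points of the quotient coming from `F`
  have hdF : ∀ y : H ⧸ vanIdeal F,
      (∀ z : WithConv ((H ⧸ vanIdeal F) →ₐ[GaloisRep.ratLocalizedAt p] AlgebraicClosure ℚ),
        ι' z ∈ F → z.ofConv y = 0) → y = 0 := by
    intro y hy
    obtain ⟨h, rfl⟩ := Ideal.Quotient.mk_surjective y
    rw [Ideal.Quotient.eq_zero_iff_mem]
    intro x hx
    have := hy (toConv (quotPt F x hx)) (by rw [hlift x hx]; exact hx)
    exact this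
  -- every point of the quotient comes from `F`
  have hall : ∀ z : WithConv ((H ⧸ vanIdeal F) →ₐ[GaloisRep.ratLocalizedAt p] AlgebraicClosure ℚ),
      ι' z ∈ F := by
    intro z
    let S : Set ((H ⧸ vanIdeal F) →ₐ[GaloisRep.ratLocalizedAt p] AlgebraicClosure ℚ) :=
      {y | ι' (toConv y) ∈ F}
    have hS : ∀ σ : AlgebraicClosure ℚ ≃ₐ[ℚ] AlgebraicClosure ℚ, ∀ y ∈ S, galPt σ y ∈ S :=
      fun σ y hy => hst σ _ hy
    have hd : ∀ y : H ⧸ vanIdeal F, (∀ x ∈ S, x y = 0) → y = 0 :=
      fun y hy => hdF y (fun z hz => hy z.ofConv hz)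
    exact mem_of_dense_of_stable (K := ℚ)
      (Module.Free.chooseBasis (GaloisRep.ratLocalizedAt p) (H ⧸ vanIdeal F)) S hS hd z.ofConv
  -- the bijection with `M'`
  have hex : ∀ z : WithConv ((H ⧸ vanIdeal F) →ₐ[GaloisRep.ratLocalizedAt p] AlgebraicClosure ℚ),
      ∃ m : M', ι m = e (ι' z) := fun z => hall z
  choose t ht using hex
  have htinj : Function.Injective t := by
    intro z z' hzz'
    apply hι'inj
    apply e.injective
    rw [← ht z, ← ht z', hzz']
  have htsurj : Function.Surjective t := by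
    intro m
    have hx : e.symm (ι m) ∈ F := ⟨m, (e.apply_symm_apply _).symm⟩
    refine ⟨toConv (quotPt F _ hx), ?_⟩
    apply hι
    rw [ht, hlift _ hx, e.apply_symm_apply]
  refine ⟨H ⧸ vanIdeal F, inferInstance, inferInstance, inferInstance, inferInstance,
    inferInstance, ?_, Equiv.ofBijective t ⟨htinj, htsurj⟩, ?_, ?_⟩
  · intro y hy
    exact hdF y (fun z _ => hy z.ofConv)
  · intro f g
    apply hι
    change ι (t (f * g)) = ι (t f + t g)
    rw [map_add, ht, ht, ht, map_mul, hadd]
  · intro σ f g hfg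
    apply hι
    change ι (t g) = ι (act' σ (t f))
    have hg : g = galConv (K := ℚ) σ f := (eq_galConv_iff σ f g).mp hfg
    rw [heq, ht, ht, hg, hι'gal, hgal']

/-- **Finite flat models pass to subobjects.** -/
theorem HasFlatModel.of_injective {p : ℕ} [Fact p.Prime] {M M' : Type} [AddCommGroup M]
    [AddCommGroup M'] {act : GQ → M → M} {act' : GQ → M' → M'} (h : HasFlatModel p M act)
    (ι : M' →+ M) (hι : Function.Injective ι) (heq : ∀ σ x, ι (act' σ x) = act σ (ι x)) :
    HasFlatModel p M' act' :=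
  (h.dense_of_injective ι hι heq).hasFlatModel

/-- every finite flat model can be replaced by one with dense points. -/
theorem HasFlatModel.dense {p : ℕ} [Fact p.Prime] {M : Type} [AddCommGroup M]
    {act : GQ → M → M} (h : HasFlatModel p M act) : HasDenseFlatModel p M act :=
  h.dense_of_injective (AddMonoidHom.id M) Function.injective_id (fun _ _ => rfl)

/-- transport along an equivariant additive isomorphism. -/
theorem HasFlatModel.of_equiv {p : ℕ} {M M' : Type} [AddCommGroup M] [AddCommGroup M']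
    {act : GQ → M → M} {act' : GQ → M' → M'} (h : HasFlatModel p M act) (φ : M ≃+ M')
    (heq : ∀ σ x, φ (act σ x) = act' σ (φ x)) : HasFlatModel p M' act' := by
  obtain ⟨H, i1, i2, h1, h2, h3, e, hadd, hgal⟩ := h
  refine ⟨H, i1, i2, h1, h2, h3, e.trans φ.toEquiv, ?_, ?_⟩
  · intro f g
    change φ (e (f * g)) = φ (e f) + φ (e g)
    rw [hadd, map_add]
  · intro σ f g hfg
    change φ (e g) = act' σ (φ (e f))
    rw [hgal σ f g hfg, heq]

end Fermat.Agent.S32lib
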