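/-
S32lib / FM (helper8): **finite flat models of products, of the trivial group, of finite powers.**
The points of a tensor product of bialgebras are the pairs of points (as monoids, for the
convolution products); the tensor product of two finite flat cocommutative Hopf algebras is one.
-/
import Mathlib
import Fermat.Agent.S32lib.FM.Sub

set_option autoImplicit false
set_option linter.unusedSectionVars false
set_option linter.style.haveILetI false

noncomputable section

namespace Fermat.Agent.S32lib

open WithConv TensorProduct Fermat.Agent.S56lib.Hopf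

section pairs

variable {R : Type*} [CommRing R] {A B : Type*} [CommRing A] [CommRing B] [Bialgebra R A]
  [Bialgebra R B] {Ω : Type*} [CommRing Ω] [Algebra R Ω]

/-- `a ↦ a ⊗ 1` as a bialgebra homomorphism. -/
def inclL : A →ₐc[R] A ⊗[R] B :=
  (BialgHom.lTensor A (Bialgebra.unitBialgHom R B)).comp
    ((Bialgebra.TensorProduct.rid R R A).symm : A →ₐc[R] A ⊗[R] R)

/-- `b ↦ 1 ⊗ b` as a bialgebra homomorphism. -/
def inclR : B →ₐc[R] A ⊗[R] B :=
  (BialgHom.rTensor B (Bialgebra.unitBialgHom R A)).comp
    ((Bialgebra.TensorProduct.lid R B).symm : B →ₐc[R] R ⊗[R] B)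

@[simp] theorem inclL_apply (a : A) : (inclL : A →ₐc[R] A ⊗[R] B) a = a ⊗ₜ 1 := by
  change (Bialgebra.TensorProduct.map (BialgHom.id R A) (Bialgebra.unitBialgHom R B))
    (a ⊗ₜ[R] (1 : R)) = _
  rw [Bialgebra.TensorProduct.map_tmul]
  change a ⊗ₜ[R] (algebraMap R B 1) = _
  rw [map_one]

@[simp] theorem inclR_apply (b : B) : (inclR : B →ₐc[R] A ⊗[R] B) b = 1 ⊗ₜ b := by
  change (Bialgebra.TensorProduct.map (Bialgebra.unitBialgHom R A) (BialgHom.id R B))
    ((1 : R) ⊗ₜ[R] b) = _
  rw [Bialgebra.TensorProduct.map_tmul]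
  change (algebraMap R A 1) ⊗ₜ[R] b = _
  rw [map_one]

/-- the points of a tensor product are the pairs of points. -/
def pairHom : WithConv (A ⊗[R] B →ₐ[R] Ω) →* WithConv (A →ₐ[R] Ω) × WithConv (B →ₐ[R] Ω) :=
  (pullHom (inclL : A →ₐc[R] A ⊗[R] B)).prod (pullHom (inclR : B →ₐc[R] A ⊗[R] B))

theorem pairHom_fst (z : WithConv (A ⊗[R] B →ₐ[R] Ω)) (a : A) :
    (pairHom z).1.ofConv a = z.ofConv (a ⊗ₜ 1) := by
  change z.ofConv ((inclL : A →ₐc[R] A ⊗[R] B) a) = _
  rw [inclL_apply]

theorem pairHom_snd (z : WithConv (A ⊗[R] B →ₐ[R] Ω)) (b : B) :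
    (pairHom z).2.ofConv b = z.ofConv (1 ⊗ₜ b) := by
  change z.ofConv ((inclR : B →ₐc[R] A ⊗[R] B) b) = _
  rw [inclR_apply]

theorem pairHom_bijective :
    Function.Bijective (pairHom : WithConv (A ⊗[R] B →ₐ[R] Ω) → _ × _) := by
  constructor
  · intro z z' h
    apply ofConv_injective
    apply Algebra.TensorProduct.ext
    · ext a
      have := congrArg (fun t => t.1.ofConv a) h
      simp only [pairHom_fst] at this
      exact this
    · ext b
      have := congrArg (fun t => t.2.ofConv b) h
      simp only [pairHom_snd] at this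
      exact this
  · rintro ⟨f, g⟩
    refine ⟨toConv (Algebra.TensorProduct.productMap f.ofConv g.ofConv), ?_⟩
    apply Prod.ext
    · apply ofConv_injective
      ext a
      rw [pairHom_fst]
      simp
    · apply ofConv_injective
      ext b
      rw [pairHom_snd]
      simp

end pairs

/-- **Finite flat models of binary products.** -/
theorem HasFlatModel.prod {p : ℕ} {M₁ M₂ : Type} [AddCommGroup M₁] [AddCommGroup M₂]
    {act₁ : GQ → M₁ → M₁} {act₂ : GQ → M₂ → M₂} (h₁ : HasFlatModel p M₁ act₁)
    (h₂ : HasFlatModel p M₂ act₂) :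
    HasFlatModel p (M₁ × M₂) (fun σ m => (act₁ σ m.1, act₂ σ m.2)) := by
  obtain ⟨H₁, _, _, hfin₁, hflat₁, hco₁, e₁, hadd₁, hgal₁⟩ := h₁
  obtain ⟨H₂, _, _, hfin₂, hflat₂, hco₂, e₂, hadd₂, hgal₂⟩ := h₂
  haveI := hfin₁
  haveI := hflat₁
  haveI := hco₁
  haveI := hfin₂
  haveI := hflat₂
  haveI := hco₂
  let P : WithConv (H₁ ⊗[GaloisRep.ratLocalizedAt p] H₂ →ₐ[GaloisRep.ratLocalizedAt p]
      AlgebraicClosure ℚ) ≃ WithConv (H₁ →ₐ[GaloisRep.ratLocalizedAt p] AlgebraicClosure ℚ) ×
        WithConv (H₂ →ₐ[GaloisRep.ratLocalizedAt p] AlgebraicClosure ℚ) :=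
    Equiv.ofBijective pairHom pairHom_bijective
  refine ⟨H₁ ⊗[GaloisRep.ratLocalizedAt p] H₂, inferInstance, inferInstance, inferInstance,
    inferInstance, inferInstance, P.trans (Equiv.prodCongr e₁ e₂), ?_, ?_⟩
  · intro f g
    change (e₁ (pairHom (f * g)).1, e₂ (pairHom (f * g)).2) =
      (e₁ (pairHom f).1, e₂ (pairHom f).2) + (e₁ (pairHom g).1, e₂ (pairHom g).2)
    rw [map_mul, Prod.fst_mul, Prod.snd_mul, hadd₁, hadd₂]
    rfl
  · intro σ f g hfg
    change (e₁ (pairHom g).1, e₂ (pairHom g).2) =
      (act₁ σ (e₁ (pairHom f).1), act₂ σ (e₂ (pairHom f).2))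
    rw [hgal₁ σ (pairHom f).1 (pairHom g).1, hgal₂ σ (pairHom f).2 (pairHom g).2]
    · intro b
      change (pairHom g).2.ofConv b = σ ((pairHom f).2.ofConv b)
      rw [pairHom_snd, pairHom_snd]
      exact hfg _
    · intro a
      change (pairHom g).1.ofConv a = σ ((pairHom f).1.ofConv a)
      rw [pairHom_fst, pairHom_fst]
      exact hfg _

/-- **The trivial group has a finite flat model** (`H = ℤ_(p)`). -/
theorem HasFlatModel.of_subsingleton {p : ℕ} {M : Type} [AddCommGroup M] [Subsingleton M]
    (act : GQ → M → M) : HasFlatModel p M act := by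
  haveI : Unique (GaloisRep.ratLocalizedAt p →ₐ[GaloisRep.ratLocalizedAt p] AlgebraicClosure ℚ) :=
    ⟨⟨Algebra.ofId _ _⟩, fun f => Subsingleton.elim _ _⟩
  haveI : Unique (WithConv (GaloisRep.ratLocalizedAt p →ₐ[GaloisRep.ratLocalizedAt p]
      AlgebraicClosure ℚ)) := inferInstance
  haveI : Unique M := ⟨⟨0⟩, fun _ => Subsingleton.elim _ _⟩
  refine ⟨GaloisRep.ratLocalizedAt p, inferInstance, inferInstance, inferInstance, inferInstance,
    inferInstance, Equiv.ofUnique _ _, ?_, ?_⟩
  · intro f g
    exact Subsingleton.elim _ _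
  · intro σ f g _
    exact Subsingleton.elim _ _

/-- **Finite flat models of finite powers.** -/
theorem HasFlatModel.pi {p : ℕ} {M : Type} [AddCommGroup M] {act : GQ → M → M}
    (h : HasFlatModel p M act) (ι : Type) [Finite ι] :
    HasFlatModel p (ι → M) (fun σ f i => act σ (f i)) := by
  induction ι using Finite.induction_empty_option with
  | of_equiv φ hα =>
    rename_i α β
    let ψ : (α → M) ≃+ (β → M) :=
      { toFun := fun f b => f (φ.symm b)
        invFun := fun f a => f (φ a)
        left_inv := fun f => by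
          funext a
          simp
        right_inv := fun f => by
          funext b
          simp
        map_add' := fun f g => rfl }
    refine hα.of_equiv ψ ?_
    intro σ x
    rfl
  | h_empty => exact HasFlatModel.of_subsingleton _
  | h_option hα =>
    rename_i α _
    have h2 := h.prod hα
    let φ : (M × (α → M)) ≃+ (Option α → M) :=
      { toFun := fun m o => Option.elim o m.1 m.2
        invFun := fun f => (f none, fun a => f (some a))
        left_inv := fun m => rfl
        right_inv := fun f => by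
          funext o
          cases o <;> rfl
        map_add' := fun m m' => by
          funext o
          cases o <;> rfl }
    refine h2.of_equiv φ ?_
    intro σ x
    funext o
    cases o <;> rfl

end Fermat.Agent.S32lib
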