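/-
S32lib / FM (helper8): **finite flat models pass to Galois-equivariant quotients.**
If `M` has a finite flat model and `π : M → M''` is a surjective additive equivariant map, then the
Hopf subalgebra of functions invariant under translation by `F1 = ker π` (inside a model with dense
points) is a finite flat model of `M''`.  Uses `S56lib/Hopf/Invar` (the invariant subalgebra is a
Hopf subalgebra; points agreeing on it differ by an element of `F1`) and the counting lemma.
-/
import Mathlib
import Fermat.Agent.S32lib.FM.Sub

set_option autoImplicit false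
set_option linter.unusedSectionVars false
set_option linter.style.haveILetI false

noncomputable section

namespace Fermat.Agent.S32lib

open WithConv Fermat.Agent.S56lib.Hopf

/-- **Finite flat models pass to quotients.** -/
theorem HasFlatModel.of_surjective {p : ℕ} [Fact p.Prime] {M M'' : Type} [AddCommGroup M]
    [AddCommGroup M''] {act : GQ → M → M} {act'' : GQ → M'' → M''} (h : HasFlatModel p M act)
    (π : M →+ M'') (hπ : Function.Surjective π) (heq : ∀ σ x, π (act σ x) = act'' σ (π x)) :
    HasFlatModel p M'' act'' := by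
  classical
  obtain ⟨H, _, _, hfin, hflat, hcocomm, hdense, e, hadd, hgal⟩ := h.dense
  haveI := hfin
  haveI := hflat
  haveI := hcocomm
  haveI : Module.Free (GaloisRep.ratLocalizedAt p) H := Module.free_of_flat_of_isLocalRing
  have he1 : e 1 = 0 := model_map_one e hadd
  have hgal' : ∀ (σ : GQ) (x : WithConv (H →ₐ[GaloisRep.ratLocalizedAt p] AlgebraicClosure ℚ)),
      e (galConv (K := ℚ) σ x) = act σ (e x) := fun σ x => hgal σ x _ (fun _ => rfl)
  haveI hMfin : Finite M := model_finite e hadd
  set n := Nat.card M with hn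
  have hpos : 0 < n := Nat.card_pos
  have hact0 : ∀ σ, act'' σ 0 = 0 := by
    intro σ
    have h1 : act σ 0 = 0 := by
      have := hgal' σ 1
      rw [map_one, he1] at this
      exact this.symm
    have h2 := heq σ 0
    rw [h1, map_zero] at h2
    exact h2.symm
  -- the two submonoids
  let F3 : Submonoid (WithConv (H →ₐ[GaloisRep.ratLocalizedAt p] AlgebraicClosure ℚ)) := ⊤
  let F1 : Submonoid (WithConv (H →ₐ[GaloisRep.ratLocalizedAt p] AlgebraicClosure ℚ)) :=
    { carrier := {x | π (e x) = 0}
      one_mem' := by
        change π (e 1) = 0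
        rw [he1, map_zero]
      mul_mem' := by
        intro x y hx hy
        change π (e (x * y)) = 0
        rw [hadd, map_add, hx, hy, add_zero] }
  have hmemF1 : ∀ x, x ∈ F1 ↔ π (e x) = 0 := fun _ => Iff.rfl
  have hD : InvData ℚ n F1 F3 :=
    { le := fun _ _ => Submonoid.mem_top _
      stable1 := by
        intro σ x hx
        rw [hmemF1] at hx ⊢
        rw [hgal', heq, hx, hact0]
      stable3 := fun _ _ _ => Submonoid.mem_top _
      dense := fun h hh => hdense h (fun x => hh (toConv x) (Submonoid.mem_top _))
      kill := fun x _ => model_pow_card e hadd x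
      pos := hpos }
  have hB := isHopfSubR_invSub hD
  letI := hB.hopfAlgebra
  haveI : Coalgebra.IsCocomm (GaloisRep.ratLocalizedAt p) ↥(invSub F1 F3) := hB.isCocomm
  let res : WithConv (H →ₐ[GaloisRep.ratLocalizedAt p] AlgebraicClosure ℚ) →*
      WithConv (↥(invSub F1 F3) →ₐ[GaloisRep.ratLocalizedAt p] AlgebraicClosure ℚ) := hB.resHom
  have hres_apply : ∀ (x : WithConv (H →ₐ[GaloisRep.ratLocalizedAt p] AlgebraicClosure ℚ))
      (b : ↥(invSub F1 F3)), (res x).ofConv b = x.ofConv (b : H) := fun _ _ => rfl
  have hres_gal : ∀ (σ : GQ) (x : WithConv (H →ₐ[GaloisRep.ratLocalizedAt p] AlgebraicClosure ℚ)),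
      res (galConv (K := ℚ) σ x) = galConv (K := ℚ) σ (res x) := fun _ _ => rfl
  -- `res` is surjective
  have hres_surj : Function.Surjective res := by
    intro z
    let S : Set (↥(invSub F1 F3) →ₐ[GaloisRep.ratLocalizedAt p] AlgebraicClosure ℚ) :=
      {y | ∃ x, res x = toConv y}
    have hS : ∀ σ : AlgebraicClosure ℚ ≃ₐ[ℚ] AlgebraicClosure ℚ, ∀ y ∈ S, galPt σ y ∈ S := by
      rintro σ y ⟨x, hx⟩
      refine ⟨galConv (K := ℚ) σ x, ?_⟩
      rw [hres_gal, hx]
      rfl
    have hd : ∀ b : ↥(invSub F1 F3), (∀ y ∈ S, y b = 0) → b = 0 := by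
      intro b hb
      apply Subtype.ext
      apply hdense
      intro x
      exact hb (res (toConv x)).ofConv ⟨toConv x, rfl⟩
    obtain ⟨x, hx⟩ := mem_of_dense_of_stable (K := ℚ)
      (Module.Free.chooseBasis (GaloisRep.ratLocalizedAt p) ↥(invSub F1 F3)) S hS hd z.ofConv
    exact ⟨x, hx⟩
  -- the fibres of `res` are the fibres of `π ∘ e`
  have hres_iff : ∀ x y : WithConv (H →ₐ[GaloisRep.ratLocalizedAt p] AlgebraicClosure ℚ),
      res x = res y ↔ π (e x) = π (e y) := by
    intro x y
    constructor
    · intro hxy
      obtain ⟨u, hu, hxu⟩ := exists_mul_of_agree hD (Submonoid.mem_top x) (Submonoid.mem_top y)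
        (fun b hb => by
          have := congrArg (fun t => t.ofConv ⟨b, hb⟩) hxy
          exact this)
      rw [hxu, hadd, map_add, (hmemF1 u).mp hu, add_zero]
    · intro hxy
      have hu : x * y ^ (n - 1) ∈ F1 := by
        rw [hmemF1, hadd, model_map_pow e hadd, map_add, map_nsmul, hxy, ← succ_nsmul',
          Nat.sub_add_cancel hpos, ← map_nsmul, hn, card_nsmul_eq_zero', map_zero]
      have hx : x = y * (x * y ^ (n - 1)) := by
        rw [mul_left_comm, ← pow_succ', Nat.sub_add_cancel hpos, model_pow_card e hadd y,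
          mul_one]
      apply ofConv_injective
      ext b
      rw [hres_apply, hres_apply]
      conv_lhs => rw [hx]
      exact b.2 y (Submonoid.mem_top y) _ hu
  -- the bijection
  choose s hs using hres_surj
  let t : WithConv (↥(invSub F1 F3) →ₐ[GaloisRep.ratLocalizedAt p] AlgebraicClosure ℚ) → M'' :=
    fun z => π (e (s z))
  have ht : ∀ x, t (res x) = π (e x) := fun x => (hres_iff _ _).mp (hs (res x))
  have htinj : Function.Injective t := by
    intro z z' hzz'
    rw [← hs z, ← hs z']
    exact (hres_iff _ _).mpr hzz'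
  have htsurj : Function.Surjective t := by
    intro m
    obtain ⟨m', rfl⟩ := hπ m
    exact ⟨res (e.symm m'), by rw [ht, e.apply_symm_apply]⟩
  refine ⟨↥(invSub F1 F3), inferInstance, inferInstance, inferInstance, inferInstance,
    inferInstance, Equiv.ofBijective t ⟨htinj, htsurj⟩, ?_, ?_⟩
  · intro f g
    change t (f * g) = t f + t g
    rw [← hs f, ← hs g, ← map_mul, ht, ht, ht, hadd, map_add]
  · intro σ f g hfg
    change t g = act'' σ (t f)
    have hg : g = galConv (K := ℚ) σ f := by
      apply ofConv_injective
      ext b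
      exact hfg b
    rw [hg, ← hs f, ← hres_gal, ht, ht, hgal', heq]

end Fermat.Agent.S32lib
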