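/-
S32lib / FM (helper8): **finite flat models pass to subquotients**, in the form used by the
assembly: `f : V → A` and `g : V → Q` equivariant additive maps out of a `G_ℚ`-module `V`, `g`
surjective, `ker f ≤ ker g`; a finite flat model of `A` yields one of `Q`
(`Q` is a quotient of `V ⧸ ker f ↪ A`).
-/
import Mathlib
import Fermat.Agent.S32lib.FM.Quot

set_option autoImplicit false
set_option linter.unusedSectionVars false
set_option linter.style.haveILetI false

noncomputable section

namespace Fermat.Agent.S32lib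

/-- **subquotients.** -/
theorem HasFlatModel.of_subquotient {p : ℕ} [Fact p.Prime] {A V Q : Type} [AddCommGroup A]
    [AddCommGroup V] [AddCommGroup Q] {actA : GQ → A → A} {actQ : GQ → Q → Q}
    (h : HasFlatModel p A actA) (actV : GQ → V →+ V) (f : V →+ A) (g : V →+ Q)
    (hf : ∀ σ v, f (actV σ v) = actA σ (f v)) (hg : ∀ σ v, g (actV σ v) = actQ σ (g v))
    (hsurj : Function.Surjective g) (hker : ∀ v, f v = 0 → g v = 0) :
    HasFlatModel p Q actQ := by
  have hst : ∀ σ, f.ker ≤ AddSubgroup.comap (actV σ) f.ker := by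
    intro σ v hv
    rw [AddSubgroup.mem_comap, AddMonoidHom.mem_ker, hf]
    rw [AddMonoidHom.mem_ker] at hv
    -- `actA σ 0 = 0`
    rw [hv]
    have h0 := hf σ 0
    rw [map_zero, map_zero] at h0
    exact h0.symm
  let actW : GQ → (V ⧸ f.ker) → (V ⧸ f.ker) := fun σ =>
    QuotientAddGroup.map f.ker f.ker (actV σ) (hst σ)
  have h1 : HasFlatModel p (V ⧸ f.ker) actW := by
    refine h.of_injective (QuotientAddGroup.kerLift f) (QuotientAddGroup.kerLift_injective f) ?_
    intro σ x
    obtain ⟨v, rfl⟩ := QuotientAddGroup.mk_surjective x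
    exact hf σ v
  have hle : f.ker ≤ g.ker := fun v hv => hker v hv
  refine h1.of_surjective (QuotientAddGroup.lift f.ker g hle) ?_ ?_
  · intro q
    obtain ⟨v, rfl⟩ := hsurj q
    exact ⟨QuotientAddGroup.mk v, rfl⟩
  · intro σ x
    obtain ⟨v, rfl⟩ := QuotientAddGroup.mk_surjective x
    exact hg σ v

end Fermat.Agent.S32lib
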